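import Fermat.Agent.H72.FF.Interfaces
import Fermat.Agent.H81.Local.LocalField
import Fermat.Agent.H53.S14T.Profinite

/-!
# P-FF, row FF-P1 : `PlaceDense` (helper95)

`placeDense : ∀ ℓ prime, ∀ A over ℓ, Fermat.Agent.H72.FF.PlaceDense ℓ A`: every element of `ℚ̄`
fixed by the decomposition group of a place `A` over `ℓ` is `ℓ`-adically approximated by
rational numbers.

Proof: for `A = padicPlace ℓ` the fixed field of the decomposition group is `ℚ̄ ∩ ℚ_ℓ`
(`Fermat.Agent.H81.Local.mem_localField_iff`) and `ℚ` is dense in `ℚ_ℓ`; an arbitrary place over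
`ℓ` is conjugate to `padicPlace ℓ` (`Fermat.Agent.H53.transitiveStatement` with `L = ⊥`).
-/

set_option autoImplicit false

noncomputable section

namespace Fermat.Agent.H95.FF

open Fermat.Agent.H72.FF

open scoped Pointwise

/-- `PlaceDense` for the standard place `padicPlace ℓ`. -/
theorem placeDense_padicPlace (ℓ : ℕ) [Fact ℓ.Prime] : PlaceDense ℓ (padicPlace ℓ) := by
  intro c hc M
  have hℓ : (ℓ : ℕ).Prime := Fact.out
  obtain ⟨y, hy⟩ := (Fermat.Agent.H81.Local.mem_localField_iff ℓ).1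
    ((Fermat.Agent.H81.Local.mem_localField_iff' ℓ).2 hc)
  have hℓ0 : (0 : ℝ) < (ℓ : ℝ) := by exact_mod_cast hℓ.pos
  have hε : (0 : ℝ) < ((ℓ : ℝ) ^ M)⁻¹ := by positivity
  obtain ⟨q, hq⟩ := Padic.rat_dense ℓ y hε
  have hℓQ : ((ℓ : ℕ) : Qb) ≠ 0 := by exact_mod_cast hℓ.ne_zero
  refine ⟨q, (c - algebraMap ℚ Qb q) / (ℓ : Qb) ^ M, ?_, ?_⟩
  · rw [← Fermat.Agent.H81.Local.qAbs_le_one_iff, map_div₀, map_pow,
      Fermat.Agent.H81.Local.qAbs_natCast_self, Fermat.Agent.H81.Local.qAbs_apply, map_sub, ← hy]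
    have h1 : padicEmbedding ℓ (algebraMap ℚ Qb q) = algebraMap ℚ_[ℓ] (PadicAlgCl ℓ) (q : ℚ_[ℓ]) := by
      rw [AlgHom.commutes]
      simp
    rw [h1, ← map_sub]
    have h2 : ‖algebraMap ℚ_[ℓ] (PadicAlgCl ℓ) (y - (q : ℚ_[ℓ]))‖ = ‖y - (q : ℚ_[ℓ])‖ :=
      PadicAlgCl.norm_extends ℓ (y - (q : ℚ_[ℓ]))
    rw [h2, inv_pow, div_le_one (by positivity)]
    exact hq.le
  · field_simp

section Transport

variable {L : Type*} [Field L]

/-- An integer prime to `ℓ` is a unit in a valuation subring over `ℓ`. -/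
theorem placeDense_valuation_intCast_eq_one (B : ValuationSubring L) {ℓ : ℕ} (hℓ : ℓ.Prime)
    (hB : B.LiesOverPrime ℓ) {n : ℤ} (hn : ¬ (ℓ : ℤ) ∣ n) : B.valuation (n : L) = 1 := by
  have hle : B.valuation (n : L) ≤ 1 := (B.valuation_le_one_iff _).mpr (intCast_mem B n)
  refine le_antisymm hle (not_lt.mp fun hlt => ?_)
  have hcop : IsCoprime (ℓ : ℤ) n :=
    (Int.isCoprime_iff_gcd_eq_one).mpr
      (Nat.Coprime.gcd_eq_one ((Nat.Prime.coprime_iff_not_dvd hℓ).mpr
        (fun h => hn (Int.natCast_dvd.mpr h))))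
  obtain ⟨u, w, huw⟩ := hcop
  have h1 : ((u : L) * (ℓ : L) + (w : L) * (n : L)) = 1 := by
    exact_mod_cast congrArg (Int.cast (R := L)) huw
  have hu : B.valuation (u : L) ≤ 1 := (B.valuation_le_one_iff _).mpr (intCast_mem B u)
  have hw : B.valuation (w : L) ≤ 1 := (B.valuation_le_one_iff _).mpr (intCast_mem B w)
  have hℓ1 : B.valuation (ℓ : L) < 1 := (B.mem_nonunits_iff).mp hB
  have h2 : B.valuation ((u : L) * (ℓ : L) + (w : L) * (n : L)) < 1 := by
    refine lt_of_le_of_lt (B.valuation.map_add _ _) (max_lt ?_ ?_)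
    · rw [map_mul]
      exact lt_of_le_of_lt (mul_le_of_le_one_left' hu) hℓ1
    · rw [map_mul]
      exact lt_of_le_of_lt (mul_le_of_le_one_left' hw) hlt
  rw [h1, map_one] at h2
  exact lt_irrefl _ h2

/-- A rational number lies in a valuation subring over `ℓ` iff `ℓ` does not divide its
denominator. -/
theorem placeDense_ratCast_mem_iff [CharZero L] (B : ValuationSubring L) {ℓ : ℕ} (hℓ : ℓ.Prime)
    (hB : B.LiesOverPrime ℓ) (r : ℚ) : ((r : ℚ) : L) ∈ B ↔ ¬ ℓ ∣ r.den := by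
  have hr : ((r : ℚ) : L) = (r.num : L) / (r.den : L) := by
    rw [Rat.cast_def]
  have hden0 : ((r.den : ℕ) : L) ≠ 0 := by exact_mod_cast r.den_nz
  constructor
  · intro hmem hdvd
    have hnum : ¬ (ℓ : ℤ) ∣ r.num := by
      intro h
      have h1 : ℓ ∣ r.num.natAbs := Int.natCast_dvd.mp h
      have h2 : ℓ ∣ Nat.gcd r.num.natAbs r.den := Nat.dvd_gcd h1 hdvd
      rw [r.reduced] at h2
      exact hℓ.one_lt.ne' (Nat.dvd_one.mp h2)
    have hv1 := placeDense_valuation_intCast_eq_one B hℓ hB hnum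
    have hvden : B.valuation ((r.den : ℕ) : L) < 1 := by
      obtain ⟨k, hk⟩ := hdvd
      rw [hk, Nat.cast_mul, map_mul]
      have hℓ1 : B.valuation (ℓ : L) < 1 := (B.mem_nonunits_iff).mp hB
      have hk1 : B.valuation (k : L) ≤ 1 := (B.valuation_le_one_iff _).mpr (natCast_mem B k)
      exact lt_of_le_of_lt (mul_le_of_le_one_right' hk1) hℓ1
    have hvr : B.valuation ((r : ℚ) : L) ≤ 1 := (B.valuation_le_one_iff _).mpr hmem
    have hmul : B.valuation ((r : ℚ) : L) * B.valuation ((r.den : ℕ) : L) = 1 := by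
      rw [← map_mul, hr, div_mul_cancel₀ _ hden0, hv1]
    have : B.valuation ((r : ℚ) : L) * B.valuation ((r.den : ℕ) : L) < 1 :=
      lt_of_le_of_lt (mul_le_of_le_one_left' hvr) hvden
    rw [hmul] at this
    exact lt_irrefl _ this
  · intro hndvd
    have hden : ¬ (ℓ : ℤ) ∣ (r.den : ℤ) := fun h => hndvd (Int.natCast_dvd_natCast.mp h)
    have hv1 := placeDense_valuation_intCast_eq_one B hℓ hB hden
    rw [Int.cast_natCast] at hv1
    rw [← B.valuation_le_one_iff, hr, map_div₀, hv1, div_one]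
    exact (B.valuation_le_one_iff _).mpr (intCast_mem B r.num)

variable {K : Type*} [Field K] [Algebra K L]

/-- Membership in the decomposition group of a valuation subring. -/
theorem placeDense_mem_decompositionSubgroup_iff (B : ValuationSubring L) (σ : L ≃ₐ[K] L) :
    σ ∈ B.decompositionSubgroup K ↔ ∀ x : L, σ x ∈ B ↔ x ∈ B := by
  rw [ValuationSubring.decompositionSubgroup, MulAction.mem_stabilizer_iff]
  constructor
  · intro h x
    have h1 : σ x ∈ σ • B ↔ σ x ∈ B := by rw [h]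
    rw [← h1, ValuationSubring.mem_pointwise_smul_iff_inv_smul_mem]
    have e : σ⁻¹ • σ x = x := by
      change (σ⁻¹ * σ) x = x
      rw [inv_mul_cancel]
      rfl
    rw [e]
  · intro h
    ext y
    rw [ValuationSubring.mem_pointwise_smul_iff_inv_smul_mem]
    have h1 := h (σ⁻¹ • y)
    have e : σ (σ⁻¹ • y) = y := by
      change (σ * σ⁻¹) y = y
      rw [mul_inv_cancel]
      rfl
    rw [e] at h1
    exact h1.symm

end Transport

/-- **FF-P1** `PlaceDense` for every place over `ℓ`. -/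
theorem placeDense (ℓ : ℕ) [Fact ℓ.Prime] (A : ValuationSubring (AlgebraicClosure ℚ))
    (hA : A.LiesOverPrime ℓ) : PlaceDense ℓ A := by
  have hℓ : (ℓ : ℕ).Prime := Fact.out
  have hA₀ : (padicPlace ℓ).LiesOverPrime ℓ := Fermat.Agent.H81.Local.padicPlace_liesOverPrime ℓ
  -- `A` is conjugate to `padicPlace ℓ`
  have hAA' : ∀ y ∈ (⊥ : IntermediateField ℚ (AlgebraicClosure ℚ)),
      y ∈ A ↔ y ∈ padicPlace ℓ := by
    intro y hy
    obtain ⟨r, rfl⟩ := IntermediateField.mem_bot.1 hy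
    have e : algebraMap ℚ (AlgebraicClosure ℚ) r = ((r : ℚ) : AlgebraicClosure ℚ) :=
      (eq_ratCast _ r)
    rw [e, placeDense_ratCast_mem_iff A hℓ hA, placeDense_ratCast_mem_iff _ hℓ hA₀]
  obtain ⟨ρ, -, hρ⟩ := Fermat.Agent.H53.transitiveStatement ⊥ (padicPlace ℓ) A ℓ hℓ hA₀ hAA'
  intro c hc M
  -- `ρ c` is fixed by the decomposition group of `padicPlace ℓ`
  have hfix : ∀ σ ∈ (padicPlace ℓ).decompositionSubgroup ℚ, σ (ρ c) = ρ c := by
    intro σ hσ
    have hσ' := (placeDense_mem_decompositionSubgroup_iff (padicPlace ℓ) σ).1 hσ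
    have hmem : ρ⁻¹ * σ * ρ ∈ A.decompositionSubgroup ℚ := by
      rw [placeDense_mem_decompositionSubgroup_iff]
      intro x
      have e : ρ ((ρ⁻¹ * σ * ρ) x) = σ (ρ x) := by
        change (ρ * (ρ⁻¹ * σ * ρ)) x = (σ * ρ) x
        rw [← mul_assoc, ← mul_assoc, mul_inv_cancel, one_mul]
      rw [hρ, e, hσ', ← hρ]
    have h1 := hc _ hmem
    have h2 : ρ ((ρ⁻¹ * σ * ρ) c) = σ (ρ c) := by
      change (ρ * (ρ⁻¹ * σ * ρ)) c = (σ * ρ) c
      rw [← mul_assoc, ← mul_assoc, mul_inv_cancel, one_mul]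
    rw [← h2, h1]
  obtain ⟨q, a₀, ha₀, hq⟩ := placeDense_padicPlace ℓ (ρ c) hfix M
  refine ⟨q, ρ.symm a₀, ?_, ?_⟩
  · rw [hρ, AlgEquiv.apply_symm_apply]
    exact ha₀
  · apply ρ.injective
    rw [map_sub, AlgEquiv.commutes, hq, map_mul, map_pow, map_natCast, AlgEquiv.apply_symm_apply]

end Fermat.Agent.H95.FF
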