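/-
helper95 (P-FF, row 674, block FF-F6): the power bound.

In a reduced complete noetherian local ring `T` with finite residue field, for every ideal `I`
of finite index and every `μ` there is `c` such that `t ^ μ ∈ 𝔪 ^ c` implies `t ∈ I`.

Proof (compactness, in the style of König's lemma).  Some power `𝔪 ^ j₀` lies in `I`, and all
quotients `T ⧸ 𝔪 ^ j` are finite.  If the claim failed, then the set of "bad" elements
(`t ∉ I`, `t ^ μ ∈ 𝔪 ^ c` for larger and larger `c`) would be recurrent near a coherent sequence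
`s j` (`s (j + 1) - s j ∈ 𝔪 ^ j`); its limit `L` satisfies `L ^ μ ∈ ⨅ 𝔪 ^ j = ⊥`, so `L = 0`
because `T` is reduced, so `s j₀ ∈ 𝔪 ^ j₀ ≤ I` and the bad elements near `s j₀` lie in `I`.
-/
import Mathlib
import Fermat.Agent.H14.FFF.Interfaces

set_option autoImplicit false

namespace Fermat.Agent.H95.FF

open IsLocalRing Filter

section PowerBound

variable {T : Type} [CommRing T] [IsLocalRing T]

/-- An ideal of finite index of a local ring contains a power of the maximal ideal. -/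
theorem pb_exists_pow_le (I : Ideal T) [Finite (T ⧸ I)] :
    ∃ j : ℕ, maximalIdeal T ^ j ≤ I := by
  by_cases hI : I = ⊤
  · exact ⟨0, by simp [hI]⟩
  · have hnil : IsNilpotent (Ideal.jacobson (⊥ : Ideal (T ⧸ I))) :=
      IsArtinianRing.isNilpotent_jacobson_bot
    obtain ⟨n, hn⟩ := hnil
    refine ⟨n, ?_⟩
    have hsurj : Function.Surjective (Ideal.Quotient.mk I) := Ideal.Quotient.mk_surjective
    have hmap : Ideal.map (Ideal.Quotient.mk I) (Ideal.jacobson I)
        = Ideal.jacobson (Ideal.map (Ideal.Quotient.mk I) I) :=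
      Ideal.map_jacobson_of_surjective hsurj (by simp)
    rw [IsLocalRing.jacobson_eq_maximalIdeal I hI, Ideal.map_quotient_self] at hmap
    have h0 : Ideal.map (Ideal.Quotient.mk I) (maximalIdeal T ^ n) = ⊥ := by
      rw [Ideal.map_pow, hmap]
      simpa using hn
    intro x hx
    have : Ideal.Quotient.mk I x ∈ Ideal.map (Ideal.Quotient.mk I) (maximalIdeal T ^ n) :=
      Ideal.mem_map_of_mem _ hx
    rw [h0, Ideal.mem_bot] at this
    exact Ideal.Quotient.eq_zero_iff_mem.1 this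

variable [IsNoetherianRing T]

/-- The quotients by powers of the maximal ideal are finite when the residue field is. -/
theorem pb_finite_quotient_pow [Finite (ResidueField T)] (j : ℕ) :
    Finite (T ⧸ maximalIdeal T ^ j) := by
  have : Finite (T ⧸ maximalIdeal T) := inferInstanceAs (Finite (ResidueField T))
  exact Ideal.finite_quotient_pow (IsNoetherian.noetherian (maximalIdeal T)) j

/-- Recurrence of the bad set near `s` at level `j`. -/
def PbRec (I : Ideal T) (μ : ℕ) (j : ℕ) (s : T) : Prop :=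
  ∃ᶠ c in (atTop : Filter ℕ), ∃ t : T,
    t ^ μ ∈ maximalIdeal T ^ c ∧ t ∉ I ∧ t - s ∈ maximalIdeal T ^ j

theorem pbRec_step [Finite (ResidueField T)] (I : Ideal T) (μ : ℕ) (j : ℕ) (s : T)
    (h : PbRec I μ j s) :
    ∃ s' : T, s' - s ∈ maximalIdeal T ^ j ∧ PbRec I μ (j + 1) s' := by
  have hfin : Finite (T ⧸ maximalIdeal T ^ (j + 1)) := pb_finite_quotient_pow (j + 1)
  -- pigeonhole over the residue classes modulo `𝔪 ^ (j + 1)`
  have hq : ∃ q : T ⧸ maximalIdeal T ^ (j + 1), ∃ᶠ c in (atTop : Filter ℕ), ∃ t : T,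
      t ^ μ ∈ maximalIdeal T ^ c ∧ t ∉ I ∧ t - s ∈ maximalIdeal T ^ j ∧
        Ideal.Quotient.mk (maximalIdeal T ^ (j + 1)) t = q := by
    by_contra hcon
    push Not at hcon
    have hall : ∀ q : T ⧸ maximalIdeal T ^ (j + 1), ∀ᶠ c in (atTop : Filter ℕ), ¬ ∃ t : T,
        t ^ μ ∈ maximalIdeal T ^ c ∧ t ∉ I ∧ t - s ∈ maximalIdeal T ^ j ∧
          Ideal.Quotient.mk (maximalIdeal T ^ (j + 1)) t = q := fun q => by
      simpa [Filter.not_frequently] using hcon q
    have hev := (Filter.eventually_all (l := (atTop : Filter ℕ))).2 hall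
    refine h ?_
    filter_upwards [hev] with c hc
    rintro ⟨t, h1, h2, h3⟩
    exact hc _ ⟨t, h1, h2, h3, rfl⟩
  obtain ⟨q, hq⟩ := hq
  obtain ⟨s', rfl⟩ := Ideal.Quotient.mk_surjective q
  have hle : maximalIdeal T ^ (j + 1) ≤ maximalIdeal T ^ j := Ideal.pow_le_pow_right (Nat.le_succ j)
  refine ⟨s', ?_, ?_⟩
  · obtain ⟨c, t, -, -, h3, h4⟩ := hq.exists
    have h5 : t - s' ∈ maximalIdeal T ^ (j + 1) := (Ideal.Quotient.eq).1 h4
    have : s' - s = (t - s) - (t - s') := by ring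
    rw [this]
    exact Ideal.sub_mem _ h3 (hle h5)
  · refine hq.mono ?_
    rintro c ⟨t, h1, h2, -, h4⟩
    exact ⟨t, h1, h2, (Ideal.Quotient.eq).1 h4⟩

/-- The coherent sequence of recurrent points. -/
noncomputable def pbSeq [Finite (ResidueField T)] (I : Ideal T) (μ : ℕ) (h0 : PbRec I μ 0 0) :
    (j : ℕ) → {s : T // PbRec I μ j s}
  | 0 => ⟨0, h0⟩
  | j + 1 =>
    ⟨(pbRec_step I μ j (pbSeq I μ h0 j).1 (pbSeq I μ h0 j).2).choose,
      (pbRec_step I μ j (pbSeq I μ h0 j).1 (pbSeq I μ h0 j).2).choose_spec.2⟩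

theorem pbSeq_succ_sub [Finite (ResidueField T)] (I : Ideal T) (μ : ℕ) (h0 : PbRec I μ 0 0)
    (j : ℕ) : (pbSeq I μ h0 (j + 1)).1 - (pbSeq I μ h0 j).1 ∈ maximalIdeal T ^ j :=
  (pbRec_step I μ j (pbSeq I μ h0 j).1 (pbSeq I μ h0 j).2).choose_spec.1

/-- **FF-F6 (power bound).** -/
theorem powerBound : Fermat.Agent.H14.FFF.PowerBoundStatement := by
  intro T _ _ _ _ _ _ I hIfin μ
  by_contra hcon
  push Not at hcon
  -- the bad set is recurrent near `0` at level `0`
  have h0 : PbRec I μ 0 0 := by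
    refine Filter.Frequently.of_forall (fun c => ?_)
    obtain ⟨t, h1, h2⟩ := hcon c
    exact ⟨t, h1, h2, by simp⟩
  obtain ⟨j₀, hj₀⟩ := pb_exists_pow_le I
  set f : ℕ → T := fun j => (pbSeq I μ h0 j).1 with hf
  have hsm : ∀ (n : ℕ) (x y : T),
      x ≡ y [SMOD (maximalIdeal T ^ n • ⊤ : Submodule T T)] ↔ x - y ∈ maximalIdeal T ^ n := by
    intro n x y
    rw [SModEq.sub_mem]
    simp
  have hcauchy : AdicCompletion.IsAdicCauchy (maximalIdeal T) T f := by
    rw [AdicCompletion.isAdicCauchy_iff]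
    intro n
    rw [hsm]
    have := pbSeq_succ_sub I μ h0 n
    have h2 : f n - f (n + 1) = -((pbSeq I μ h0 (n + 1)).1 - (pbSeq I μ h0 n).1) := by
      simp [hf]
    rw [h2]
    exact Ideal.neg_mem_iff _ |>.2 this
  obtain ⟨L, hL⟩ := IsPrecomplete.prec' (I := maximalIdeal T) f (fun {m n} hmn => hcauchy hmn)
  have hL' : ∀ n, f n - L ∈ maximalIdeal T ^ n := fun n => (hsm n _ _).1 (hL n)
  -- `L ^ μ` lies in every power of the maximal ideal
  have hLpow : ∀ j, L ^ μ ∈ maximalIdeal T ^ j := by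
    intro j
    obtain ⟨c, hc, t, h1, -, h3⟩ := (Filter.frequently_atTop.1 (pbSeq I μ h0 j).2) j
    have h4 : t - L ∈ maximalIdeal T ^ j := by
      have : t - L = (t - f j) + (f j - L) := by ring
      rw [this]
      exact Ideal.add_mem _ h3 (hL' j)
    have h5 : t ^ μ - L ^ μ ∈ maximalIdeal T ^ j :=
      Ideal.mem_of_dvd _ (sub_dvd_pow_sub_pow t L μ) h4
    have h6 : t ^ μ ∈ maximalIdeal T ^ j := Ideal.pow_le_pow_right hc h1
    have : L ^ μ = t ^ μ - (t ^ μ - L ^ μ) := by ring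
    rw [this]
    exact Ideal.sub_mem _ h6 h5
  have hLzero : L = 0 := by
    have hbot : L ^ μ ∈ (⨅ j : ℕ, maximalIdeal T ^ j) := by
      simpa [Ideal.mem_iInf] using hLpow
    rw [Ideal.iInf_pow_eq_bot_of_isLocalRing (maximalIdeal T) Ideal.IsPrime.ne_top',
      Ideal.mem_bot] at hbot
    exact IsNilpotent.eq_zero ⟨μ, hbot⟩
  -- contradiction at level `j₀`
  obtain ⟨c, t, -, h2, h3⟩ := ((pbSeq I μ h0 j₀).2).exists
  refine h2 (hj₀ ?_)
  have h7 : f j₀ ∈ maximalIdeal T ^ j₀ := by simpa [hLzero] using hL' j₀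
  have : t = (t - f j₀) + f j₀ := by ring
  rw [this]
  exact Ideal.add_mem _ h3 h7

end PowerBound

end Fermat.Agent.H95.FF
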