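/-
helper95 (P-FF, row 773, block FF-G7-BASIS): for `n` large, `L_k(n r(P∞))` has a basis of
reductions of `I`-fixed elements of `O ∩ L_L(n P∞)`, and its dimension is `n + 1 - g`.

Proof: `n₀` is the maximum of the bound of the unramified lifting statement for `P∞` and of the
bound of `RiemannPackage.eq_of_large` on the special fibre; a basis of `L_k(n r(P∞))` is lifted
vector by vector.
-/
import Fermat.Agent.H94.FF.G7Interfaces

set_option autoImplicit false
set_option synthInstance.maxHeartbeats 400000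
set_option linter.unusedSectionVars false

noncomputable section

open AlgebraicCurve ModularCurve Fermat.Agent.H18 Fermat.Agent.H27.ESD

namespace Fermat.Agent.H95.FF

open Fermat.Agent.H10.FF Fermat.Agent.H72.FF Fermat.Agent.H94.FF

/-- **FF-G7-BASIS.** -/
theorem liftBasis (hLift : Fermat.Agent.H72.FF.UnrLiftingStatement) :
    Fermat.Agent.H94.FF.LiftBasisStatement := by
  intro N ℓ A r g hG Pinf hP
  obtain ⟨n₁, hn₁⟩ := hLift N ℓ A r g hG Pinf hP
  obtain ⟨c, hc⟩ := hG.pkgk.eq_of_large
  refine ⟨max n₁ c.toNat, fun n hn => ?_⟩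
  have hn1 : n₁ ≤ n := le_trans (le_max_left _ _) hn
  have hn2 : c ≤ (n : ℤ) := by
    have h1 : c.toNat ≤ n := le_trans (le_max_right _ _) hn
    have h2 : c ≤ (c.toNat : ℤ) := Int.self_le_toNat c
    exact h2.trans (by exact_mod_cast h1)
  have hdeg : Divisor.degree (Finsupp.single (r Pinf) (n : ℤ)) = (n : ℤ) := by
    rw [Divisor.degree_single, hG.pkgk.deg_one]
    simp
  have hfin : Module.Finite (kRes A) (riemannRochSpace (Finsupp.single (r Pinf) (n : ℤ))) :=
    hG.pkgk.finite _
  have hrank := hc (Finsupp.single (r Pinf) (n : ℤ)) (by rw [hdeg]; exact hn2)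
  rw [hdeg] at hrank
  set V := riemannRochSpace (Finsupp.single (r Pinf) (n : ℤ)) with hV
  let b := Module.finBasis (kRes A) V
  have hlift : ∀ j : Fin (Module.finrank (kRes A) V), ∃ u : gaussRing A N,
      IsUnrFn A N (u : FLb N) ∧
        (u : FLb N) ∈ riemannRochSpace (Finsupp.single Pinf (n : ℤ)) ∧
        gaussRed A N u = (b j : Fkb A N) := fun j =>
    hn₁ n hn1 (b j : Fkb A N) (b j).2
  choose m hm1 hm2 hm3 using hlift
  refine ⟨Module.finrank (kRes A) V, m, hrank, hm1, hm2, ?_, ?_⟩
  · have h1 : LinearIndependent (kRes A) (fun j => (b j : Fkb A N)) :=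
      b.linearIndependent.map' V.subtype (Submodule.ker_subtype V)
    have h2 : (fun j => gaussRed A N (m j)) = fun j => (b j : Fkb A N) := funext hm3
    rw [h2]
    exact h1
  · intro h hh
    refine ⟨fun j => b.repr ⟨h, hh⟩ j, ?_⟩
    have h1 : (⟨h, hh⟩ : V) = ∑ j, b.repr ⟨h, hh⟩ j • b j := (b.sum_repr ⟨h, hh⟩).symm
    have h2 := congrArg (fun x : V => (x : Fkb A N)) h1
    simp only [Submodule.coe_sum, Submodule.coe_smul] at h2
    refine h2.trans ?_
    refine Finset.sum_congr rfl fun j _ => ?_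
    rw [hm3 j, Algebra.smul_def]

end Fermat.Agent.H95.FF
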